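/-
S41 / C4 [CSP] (helper43, spare for CSP11 F4/F2/F5): arithmetic of `A = ℤ[1/q] ⊆ ℚ` in the landed
vocabulary `Amalgam95.IsAway`, `Ihara95.IsCongZero`:

* `IsCongZero q M` is an ideal of `A` (`cz_add`, `cz_neg`, `cz_sub`, `cz_mul_left`, `cz_mul_right`,
  `cz_of_dvd`, `cz_mul`);
* `exists_int_cz`      : every `x ∈ A` is congruent to an integer modulo `M A` (`M` prime to `q`);
* `int_dvd_of_cz`      : `ℤ ∩ M A = M ℤ` (`M` prime to `q`);
* `cz_mul_of_coprime`  : `m A ∩ k A = m k A` for coprime `m, k`;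
* `cz_pow_sub_pow`     : `x ≡ y ⟹ x ^ n ≡ y ^ n`;
* `cz_pow_totient_sub_one` : Euler in `A / K A`: if `a d ≡ 1 mod K A` then `a ^ φ(K) ≡ 1 mod K A`.
-/
import Mathlib
import Fermat.Agent.S41.Ihara95.Core

set_option autoImplicit false

namespace Fermat.Agent.S41.CSP43

open Fermat.Agent.S41.Amalgam95 Fermat.Agent.S41.Ihara95

variable {q : ℕ}

/-! ### `IsCongZero q M` is an ideal of `ℤ[1/q]` -/

lemma cz_isAway {M : ℕ} {x : ℚ} (h : IsCongZero q M x) : IsAway q x := by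
  obtain ⟨r, hr, rfl⟩ := h
  exact (IsAway.of_int (q := q) (M : ℤ)).mul hr |> fun h => by simpa using h

lemma cz_zero (M : ℕ) : IsCongZero q M 0 := ⟨0, IsAway.zero, by ring⟩

lemma cz_add {M : ℕ} {x y : ℚ} (hx : IsCongZero q M x) (hy : IsCongZero q M y) :
    IsCongZero q M (x + y) := by
  obtain ⟨r, hr, rfl⟩ := hx
  obtain ⟨s, hs, rfl⟩ := hy
  exact ⟨r + s, hr.add hs, by ring⟩

lemma cz_neg {M : ℕ} {x : ℚ} (hx : IsCongZero q M x) : IsCongZero q M (-x) := by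
  obtain ⟨r, hr, rfl⟩ := hx
  exact ⟨-r, hr.neg, by ring⟩

lemma cz_sub {M : ℕ} {x y : ℚ} (hx : IsCongZero q M x) (hy : IsCongZero q M y) :
    IsCongZero q M (x - y) := by
  rw [sub_eq_add_neg]; exact cz_add hx (cz_neg hy)

lemma cz_mul_left {M : ℕ} {a x : ℚ} (ha : IsAway q a) (hx : IsCongZero q M x) :
    IsCongZero q M (a * x) := by
  obtain ⟨r, hr, rfl⟩ := hx
  exact ⟨a * r, ha.mul hr, by ring⟩

lemma cz_mul_right {M : ℕ} {a x : ℚ} (hx : IsCongZero q M x) (ha : IsAway q a) :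
    IsCongZero q M (x * a) := by
  rw [mul_comm]; exact cz_mul_left ha hx

lemma cz_of_dvd {M M' : ℕ} (h : M ∣ M') {x : ℚ} (hx : IsCongZero q M' x) : IsCongZero q M x := by
  obtain ⟨r, hr, rfl⟩ := hx
  obtain ⟨t, rfl⟩ := h
  refine ⟨(t : ℚ) * r, ?_, by push_cast; ring⟩
  have := (IsAway.of_int (q := q) (t : ℤ)).mul hr
  simpa using this

lemma cz_mul {M M' : ℕ} {x y : ℚ} (hx : IsCongZero q M x) (hy : IsCongZero q M' y) :
    IsCongZero q (M * M') (x * y) := by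
  obtain ⟨r, hr, rfl⟩ := hx
  obtain ⟨s, hs, rfl⟩ := hy
  exact ⟨r * s, hr.mul hs, by push_cast; ring⟩

lemma cz_natCast_mul (M : ℕ) {x : ℚ} (hx : IsAway q x) : IsCongZero q M ((M : ℚ) * x) :=
  ⟨x, hx, rfl⟩

lemma isAway_natCast (n : ℕ) : IsAway q (n : ℚ) := by
  simpa using IsAway.of_int (q := q) (n : ℤ)

lemma isAway_pow {x : ℚ} (hx : IsAway q x) (n : ℕ) : IsAway q (x ^ n) := by
  induction n with
  | zero => simpa using IsAway.one (q := q)
  | succ n ih => rw [pow_succ]; exact ih.mul hx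

/-! ### integers versus `ℤ[1/q]` -/

/-- every element of `ℤ[1/q]` is congruent to an integer modulo `M ℤ[1/q]`, `M` prime to `q`. -/
lemma exists_int_cz {M : ℕ} (hM : Nat.Coprime q M) {x : ℚ} (hx : IsAway q x) :
    ∃ n : ℤ, IsCongZero q M (x - n) := by
  obtain ⟨k, m, hk⟩ := hx
  have hcop : IsCoprime ((q : ℤ) ^ k) (M : ℤ) :=
    (Nat.isCoprime_iff_coprime.2 hM).pow_left
  obtain ⟨u, v, huv⟩ := hcop
  refine ⟨u * m, (v : ℚ) * x, ?_, ?_⟩
  · exact (IsAway.of_int v).mul ⟨k, m, hk⟩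
  · have h1 : ((u : ℚ) * (q : ℚ) ^ k + v * M) = 1 := by exact_mod_cast huv
    have h2 : x = x * ((u : ℚ) * (q : ℚ) ^ k + v * M) := by rw [h1, mul_one]
    push_cast
    rw [← hk]
    linear_combination h2

/-- `ℤ ∩ M ℤ[1/q] = M ℤ`, `M` prime to `q`. -/
lemma int_dvd_of_cz {M : ℕ} (hM : Nat.Coprime q M) {n : ℤ} (h : IsCongZero q M (n : ℚ)) :
    (M : ℤ) ∣ n := by
  obtain ⟨r, ⟨k, m, hk⟩, hr⟩ := h
  have h1 : (n : ℚ) * (q : ℚ) ^ k = (M : ℚ) * m := by rw [hr, ← hk]; ring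
  have h2 : n * (q : ℤ) ^ k = (M : ℤ) * m := by exact_mod_cast h1
  have hcop : IsCoprime (M : ℤ) ((q : ℤ) ^ k) :=
    (Nat.isCoprime_iff_coprime.2 hM).pow_left.symm
  exact hcop.dvd_of_dvd_mul_right ⟨m, h2⟩

lemma cz_intCast_of_dvd {M : ℕ} {n : ℤ} (h : (M : ℤ) ∣ n) : IsCongZero q M (n : ℚ) :=
  isCongZero_of_int_dvd q M n h

/-- `m A ∩ k A = m k A` for coprime `m`, `k`. -/
lemma cz_mul_of_coprime {m k : ℕ} (hmk : Nat.Coprime m k) {x : ℚ} (hm : IsCongZero q m x)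
    (hk : IsCongZero q k x) : IsCongZero q (m * k) x := by
  obtain ⟨u, v, huv⟩ := Nat.isCoprime_iff_coprime.2 hmk
  obtain ⟨r, hr, hxr⟩ := hm
  obtain ⟨s, hs, hxs⟩ := hk
  refine ⟨(u : ℚ) * s + v * r, ((IsAway.of_int u).mul hs).add ((IsAway.of_int v).mul hr), ?_⟩
  have h1 : ((u : ℚ) * m + v * k) = 1 := by exact_mod_cast huv
  have h2 : x = x * ((u : ℚ) * m + v * k) := by rw [h1, mul_one]
  push_cast
  linear_combination h2 + ((u : ℚ) * m) * hxs + ((v : ℚ) * k) * hxr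

/-! ### powers -/

lemma cz_pow_sub_pow {K : ℕ} {x y : ℚ} (hx : IsAway q x) (hy : IsAway q y)
    (h : IsCongZero q K (x - y)) (n : ℕ) : IsCongZero q K (x ^ n - y ^ n) := by
  induction n with
  | zero => simpa using cz_zero (q := q) K
  | succ n ih =>
    have : x ^ (n + 1) - y ^ (n + 1) = x * (x ^ n - y ^ n) + (x - y) * y ^ n := by ring
    rw [this]
    exact cz_add (cz_mul_left hx ih) (cz_mul_right h (isAway_pow hy n))

/-- **Euler in `A / K A`.** -/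
lemma cz_pow_totient_sub_one {K : ℕ} (hK : Nat.Coprime q K) {a d : ℚ} (ha : IsAway q a)
    (hd : IsAway q d) (had : IsCongZero q K (a * d - 1)) :
    IsCongZero q K (a ^ Nat.totient K - 1) := by
  obtain ⟨a', ha'⟩ := exists_int_cz hK ha
  obtain ⟨d', hd'⟩ := exists_int_cz hK hd
  -- `a' d' ≡ 1 mod K` in `ℤ`
  have h1 : IsCongZero q K (((a' * d' - 1 : ℤ) : ℚ)) := by
    have : ((a' * d' - 1 : ℤ) : ℚ) =
        (a * d - 1) - (a - a') * d - (a' : ℚ) * (d - d') := by push_cast; ring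
    rw [this]
    exact cz_sub (cz_sub had (cz_mul_right ha' hd)) (cz_mul_left (IsAway.of_int a') hd')
  have h2 : (K : ℤ) ∣ a' * d' - 1 := int_dvd_of_cz hK h1
  have hcop : IsCoprime a' (K : ℤ) := by
    obtain ⟨t, ht⟩ := h2
    exact ⟨d', -t, by linear_combination ht⟩
  -- Euler in `ℤ`
  have h3 : (K : ℤ) ∣ a' ^ Nat.totient K - 1 := by
    have hunit : IsUnit ((a' : ZMod K)) := by
      obtain ⟨u, v, huv⟩ := hcop
      have : ((u * a' + v * K : ℤ) : ZMod K) = 1 := by rw [huv]; simp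
      push_cast at this
      rw [ZMod.natCast_self, mul_zero, add_zero] at this
      exact IsUnit.of_mul_eq_one _ (by rw [mul_comm]; exact this)
    obtain ⟨w, hw⟩ := hunit
    have h4 := ZMod.pow_totient w
    have h5 : ((a' : ZMod K)) ^ Nat.totient K = 1 := by
      rw [← hw, ← Units.val_pow_eq_pow_val, h4, Units.val_one]
    rw [← ZMod.intCast_zmod_eq_zero_iff_dvd]
    push_cast
    rw [h5, sub_self]
  have h6 : IsCongZero q K (((a' ^ Nat.totient K - 1 : ℤ) : ℚ)) := cz_intCast_of_dvd h3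
  have h7 := cz_pow_sub_pow ha (IsAway.of_int a') ha' (Nat.totient K)
  have : a ^ Nat.totient K - 1 =
      (a ^ Nat.totient K - (a' : ℚ) ^ Nat.totient K) + ((a' ^ Nat.totient K - 1 : ℤ) : ℚ) := by
    push_cast; ring
  rw [this]
  exact cz_add h7 h6

end Fermat.Agent.S41.CSP43
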