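/-
S41 / C4 [CSP] (helper43, spare for CSP11 F4 = STEP B of helper11's proof): the arithmetic heart of
(B3).

`Gam' = {g ∈ Γ(m)[1/q] : g₁₀ ∈ m k² A}`.  A function `D : SL(2,ℚ) → V` (`V` killed by `p`,
`p ∤ φ(k⁴)`) which is additive on `Gam'`, vanishes on `Γ(m k⁴)[1/q]` and on the unipotent (trace 2)
elements of `Gam'`, vanishes on all of `Gam'`  (`torus_kill`).

Route: for `g = [[a,b],[c,d]] ∈ Gam'`, `E := l(-cd) g u(-b d₁)` (`d₁ = d - bcd`) has off-diagonal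
entries `b³c²`, `-bc²` in `k⁴ A`, so `E ^ φ(k⁴) ∈ Γ(m k⁴)` by Euler, and `φ(k⁴) • D E = 0`.
-/
import Mathlib
import Fermat.Agent.S41.CSP43.Arith

set_option autoImplicit false
set_option linter.unusedSimpArgs false

namespace Fermat.Agent.S41.CSP43

open Matrix Fermat.Agent.S41.Amalgam95 Fermat.Agent.S41.Ihara95

variable {q : ℕ}

/-- lower unipotent -/
def lQ (x : ℚ) : SLQ := mkQ 1 0 x 1 (by ring)

@[simp] lemma lQ_00 (x : ℚ) : (lQ x) 0 0 = 1 := rfl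
@[simp] lemma lQ_01 (x : ℚ) : (lQ x) 0 1 = 0 := rfl
@[simp] lemma lQ_10 (x : ℚ) : (lQ x) 1 0 = x := rfl
@[simp] lemma lQ_11 (x : ℚ) : (lQ x) 1 1 = 1 := rfl
@[simp] lemma uQ_00 (x : ℚ) : (uQ x) 0 0 = 1 := rfl
@[simp] lemma uQ_01 (x : ℚ) : (uQ x) 0 1 = x := rfl
@[simp] lemma uQ_10 (x : ℚ) : (uQ x) 1 0 = 0 := rfl
@[simp] lemma uQ_11 (x : ℚ) : (uQ x) 1 1 = 1 := rfl

/-! ### `IsPrincipal q M` is a subgroup -/

lemma ip_away {M : ℕ} {g : SLQ} (h : IsPrincipal q M g) :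
    IsAway q (g 0 0) ∧ IsAway q (g 0 1) ∧ IsAway q (g 1 0) ∧ IsAway q (g 1 1) := by
  obtain ⟨h00, h01, h10, h11⟩ := h
  refine ⟨?_, cz_isAway h01, cz_isAway h10, ?_⟩
  · have := (cz_isAway h00).add (IsAway.one (q := q)); simpa using this
  · have := (cz_isAway h11).add (IsAway.one (q := q)); simpa using this

lemma ip_one (M : ℕ) : IsPrincipal q M (1 : SLQ) := by
  refine ⟨?_, ?_, ?_, ?_⟩
  · rw [one_00, sub_self]; exact cz_zero M
  · rw [one_01]; exact cz_zero M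
  · rw [one_10]; exact cz_zero M
  · rw [one_11, sub_self]; exact cz_zero M

lemma ip_mul {M : ℕ} {g h : SLQ} (hg : IsPrincipal q M g) (hh : IsPrincipal q M h) :
    IsPrincipal q M (g * h) := by
  obtain ⟨ga, gb, gc, gd⟩ := ip_away hg
  obtain ⟨ha, hb, hc, hd⟩ := ip_away hh
  obtain ⟨g00, g01, g10, g11⟩ := hg
  obtain ⟨h00, h01, h10, h11⟩ := hh
  refine ⟨?_, ?_, ?_, ?_⟩
  · rw [mul_00]
    have : g 0 0 * h 0 0 + g 0 1 * h 1 0 - 1 =
        (g 0 0 - 1) * h 0 0 + (h 0 0 - 1) + g 0 1 * h 1 0 := by ring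
    rw [this]
    exact cz_add (cz_add (cz_mul_right g00 ha) h00) (cz_mul_right g01 hc)
  · rw [mul_01]
    exact cz_add (cz_mul_left ga h01) (cz_mul_right g01 hd)
  · rw [mul_10]
    exact cz_add (cz_mul_right g10 ha) (cz_mul_left gd h10)
  · rw [mul_11]
    have : g 1 0 * h 0 1 + g 1 1 * h 1 1 - 1 =
        g 1 0 * h 0 1 + (g 1 1 - 1) * h 1 1 + (h 1 1 - 1) := by ring
    rw [this]
    exact cz_add (cz_add (cz_mul_right g10 hb) (cz_mul_right g11 hd)) h11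

lemma ip_inv {M : ℕ} {g : SLQ} (hg : IsPrincipal q M g) : IsPrincipal q M g⁻¹ := by
  obtain ⟨g00, g01, g10, g11⟩ := hg
  refine ⟨?_, ?_, ?_, ?_⟩
  · rw [inv_00]; exact g11
  · rw [inv_01]; exact cz_neg g01
  · rw [inv_10]; exact cz_neg g10
  · rw [inv_11]; exact g00

lemma ip_pow {M : ℕ} {g : SLQ} (hg : IsPrincipal q M g) (n : ℕ) : IsPrincipal q M (g ^ n) := by
  induction n with
  | zero => rw [pow_zero]; exact ip_one M
  | succ n ih => rw [pow_succ]; exact ip_mul ih hg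

lemma ip_of_dvd {M M' : ℕ} (h : M ∣ M') {g : SLQ} (hg : IsPrincipal q M' g) :
    IsPrincipal q M g :=
  ⟨cz_of_dvd h hg.1, cz_of_dvd h hg.2.1, cz_of_dvd h hg.2.2.1, cz_of_dvd h hg.2.2.2⟩

lemma ip_mul_of_coprime {m k : ℕ} (hmk : Nat.Coprime m k) {g : SLQ} (hm : IsPrincipal q m g)
    (hk : IsPrincipal q k g) : IsPrincipal q (m * k) g :=
  ⟨cz_mul_of_coprime hmk hm.1 hk.1, cz_mul_of_coprime hmk hm.2.1 hk.2.1,
    cz_mul_of_coprime hmk hm.2.2.1 hk.2.2.1, cz_mul_of_coprime hmk hm.2.2.2 hk.2.2.2⟩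

lemma ip_uQ {M : ℕ} {x : ℚ} (hx : IsCongZero q M x) : IsPrincipal q M (uQ x) := by
  refine ⟨?_, ?_, ?_, ?_⟩
  · rw [uQ_00, sub_self]; exact cz_zero M
  · rw [uQ_01]; exact hx
  · rw [uQ_10]; exact cz_zero M
  · rw [uQ_11, sub_self]; exact cz_zero M

lemma ip_lQ {M : ℕ} {x : ℚ} (hx : IsCongZero q M x) : IsPrincipal q M (lQ x) := by
  refine ⟨?_, ?_, ?_, ?_⟩
  · rw [lQ_00, sub_self]; exact cz_zero M
  · rw [lQ_01]; exact cz_zero M
  · rw [lQ_10]; exact hx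
  · rw [lQ_11, sub_self]; exact cz_zero M

/-! ### the group `Gam'` -/

/-- `Gam' = {g ∈ Γ(m) : g₁₀ ∈ m k² A}` -/
def InGamK (q m k : ℕ) (g : SLQ) : Prop := IsPrincipal q m g ∧ IsCongZero q (m * k ^ 2) (g 1 0)

lemma inGamK_one (m k : ℕ) : InGamK q m k (1 : SLQ) :=
  ⟨ip_one m, by rw [one_10]; exact cz_zero _⟩

lemma inGamK_mul {m k : ℕ} {g h : SLQ} (hg : InGamK q m k g) (hh : InGamK q m k h) :
    InGamK q m k (g * h) := by
  refine ⟨ip_mul hg.1 hh.1, ?_⟩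
  rw [mul_10]
  exact cz_add (cz_mul_right hg.2 (ip_away hh.1).1) (cz_mul_left (ip_away hg.1).2.2.2 hh.2)

lemma inGamK_pow {m k : ℕ} {g : SLQ} (hg : InGamK q m k g) (n : ℕ) : InGamK q m k (g ^ n) := by
  induction n with
  | zero => rw [pow_zero]; exact inGamK_one m k
  | succ n ih => rw [pow_succ]; exact inGamK_mul ih hg

lemma inGamK_uQ {m k : ℕ} {x : ℚ} (hx : IsCongZero q m x) : InGamK q m k (uQ x) :=
  ⟨ip_uQ hx, by rw [uQ_10]; exact cz_zero _⟩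

lemma inGamK_lQ {m k : ℕ} {x : ℚ} (hx : IsCongZero q (m * k ^ 2) x) : InGamK q m k (lQ x) :=
  ⟨ip_lQ (cz_of_dvd (Dvd.intro _ rfl) hx), by rw [lQ_10]; exact hx⟩

/-! ### powers of a matrix which is diagonal modulo `K` -/

/-- `g` has entries in `A` and off-diagonal entries in `K A`; then `g ^ n` too, with diagonal
`≡ (g₀₀ ^ n, g₁₁ ^ n)`. -/
lemma diag_pow {K : ℕ} {g : SLQ} (ha : IsAway q (g 0 0)) (hd : IsAway q (g 1 1))
    (hb : IsCongZero q K (g 0 1)) (hc : IsCongZero q K (g 1 0)) (n : ℕ) :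
    IsCongZero q K ((g ^ n) 0 0 - g 0 0 ^ n) ∧ IsCongZero q K ((g ^ n) 0 1) ∧
      IsCongZero q K ((g ^ n) 1 0) ∧ IsCongZero q K ((g ^ n) 1 1 - g 1 1 ^ n) := by
  induction n with
  | zero =>
    simp only [pow_zero]
    rw [one_00, one_01, one_10, one_11, sub_self]
    exact ⟨cz_zero K, cz_zero K, cz_zero K, cz_zero K⟩
  | succ n ih =>
    obtain ⟨i00, i01, i10, i11⟩ := ih
    have han : IsAway q (g 0 0 ^ n) := isAway_pow ha n
    have hdn : IsAway q (g 1 1 ^ n) := isAway_pow hd n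
    have e00 : IsAway q ((g ^ n) 0 0) := by
      have := (cz_isAway i00).add han; simpa using this
    have e11 : IsAway q ((g ^ n) 1 1) := by
      have := (cz_isAway i11).add hdn; simpa using this
    rw [pow_succ]
    refine ⟨?_, ?_, ?_, ?_⟩
    · rw [mul_00]
      have : (g ^ n) 0 0 * g 0 0 + (g ^ n) 0 1 * g 1 0 - g 0 0 ^ (n + 1) =
          ((g ^ n) 0 0 - g 0 0 ^ n) * g 0 0 + (g ^ n) 0 1 * g 1 0 := by ring
      rw [this]
      exact cz_add (cz_mul_right i00 ha) (cz_mul_left (cz_isAway i01) hc)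
    · rw [mul_01]
      exact cz_add (cz_mul_left e00 hb) (cz_mul_right i01 hd)
    · rw [mul_10]
      exact cz_add (cz_mul_right i10 ha) (cz_mul_left e11 hc)
    · rw [mul_11]
      have : (g ^ n) 1 0 * g 0 1 + (g ^ n) 1 1 * g 1 1 - g 1 1 ^ (n + 1) =
          (g ^ n) 1 0 * g 0 1 + ((g ^ n) 1 1 - g 1 1 ^ n) * g 1 1 := by ring
      rw [this]
      exact cz_add (cz_mul_left (cz_isAway i10) hb) (cz_mul_right i11 hd)

/-- a matrix with entries in `A`, diagonal modulo `K` (`K` prime to `q`): its `φ(K)`-th power is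
`≡ 1 mod K`. -/
lemma ip_pow_totient_of_diag {K : ℕ} (hK : Nat.Coprime q K) {g : SLQ} (ha : IsAway q (g 0 0))
    (hd : IsAway q (g 1 1)) (hb : IsCongZero q K (g 0 1)) (hc : IsCongZero q K (g 1 0)) :
    IsPrincipal q K (g ^ Nat.totient K) := by
  obtain ⟨i00, i01, i10, i11⟩ := diag_pow ha hd hb hc (Nat.totient K)
  have hdet := det_eq g
  have had : IsCongZero q K (g 0 0 * g 1 1 - 1) := by
    have : g 0 0 * g 1 1 - 1 = g 0 1 * g 1 0 := by linear_combination hdet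
    rw [this]
    exact cz_mul_right hb (cz_isAway hc)
  have hda : IsCongZero q K (g 1 1 * g 0 0 - 1) := by rwa [mul_comm]
  have ea := cz_pow_totient_sub_one hK ha hd had
  have ed := cz_pow_totient_sub_one hK hd ha hda
  refine ⟨?_, i01, i10, ?_⟩
  · have : (g ^ Nat.totient K) 0 0 - 1 =
        ((g ^ Nat.totient K) 0 0 - g 0 0 ^ Nat.totient K) + (g 0 0 ^ Nat.totient K - 1) := by ring
    rw [this]; exact cz_add i00 ea
  · have : (g ^ Nat.totient K) 1 1 - 1 =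
        ((g ^ Nat.totient K) 1 1 - g 1 1 ^ Nat.totient K) + (g 1 1 ^ Nat.totient K - 1) := by ring
    rw [this]; exact cz_add i11 ed

/-! ### the kill -/

lemma lgu_00 (x y : ℚ) (g : SLQ) : (lQ x * g * uQ y) 0 0 = g 0 0 := by
  simp [mul_00, mul_01, mul_10, mul_11]
lemma lgu_01 (x y : ℚ) (g : SLQ) : (lQ x * g * uQ y) 0 1 = g 0 0 * y + g 0 1 := by
  simp [mul_00, mul_01, mul_10, mul_11]
lemma lgu_10 (x y : ℚ) (g : SLQ) : (lQ x * g * uQ y) 1 0 = x * g 0 0 + g 1 0 := by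
  simp [mul_00, mul_01, mul_10, mul_11]
lemma lgu_11 (x y : ℚ) (g : SLQ) :
    (lQ x * g * uQ y) 1 1 = (x * g 0 0 + g 1 0) * y + (x * g 0 1 + g 1 1) := by
  simp [mul_00, mul_01, mul_10, mul_11]

lemma lQ_neg_mul_lQ (x : ℚ) : lQ (-x) * lQ x = 1 := by
  apply ext_entries
  · rw [mul_00, one_00]; simp
  · rw [mul_01, one_01]; simp
  · rw [mul_10, one_10]; simp
  · rw [mul_11, one_11]; simp

lemma uQ_neg_mul_uQ (x : ℚ) : uQ (-x) * uQ x = 1 := by
  apply ext_entries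
  · rw [mul_00, one_00]; simp
  · rw [mul_01, one_01]; simp
  · rw [mul_10, one_10]; simp
  · rw [mul_11, one_11]; simp

section Kill

variable {V : Type*} [AddCommGroup V]

/-- **(B3) core.** -/
theorem torus_kill {m k p : ℕ} (hqk : Nat.Coprime q k) (hmk : Nat.Coprime m k)
    (hp : Nat.Coprime p (Nat.totient (k ^ 4))) (hV : ∀ v : V, p • v = 0) (D : SLQ → V)
    (hmul : ∀ g h, InGamK q m k g → InGamK q m k h → D (g * h) = D g + D h)
    (hvan : ∀ g, IsPrincipal q (m * k ^ 4) g → D g = 0)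
    (hunip : ∀ g, InGamK q m k g → g 0 0 + g 1 1 = 2 → D g = 0) :
    ∀ g, InGamK q m k g → D g = 0 := by
  -- `D 1 = 0` and `D (g ^ n) = n • D g`
  have hD1 : D 1 = 0 := by
    have := hmul 1 1 (inGamK_one m k) (inGamK_one m k)
    rw [mul_one] at this
    exact left_eq_add.1 this
  have hpow : ∀ g, InGamK q m k g → ∀ n : ℕ, D (g ^ n) = n • D g := by
    intro g hg n
    induction n with
    | zero => rw [pow_zero, zero_smul]; exact hD1
    | succ n ih => rw [pow_succ, hmul _ _ (inGamK_pow hg n) hg, ih, succ_nsmul]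
  intro g hg
  obtain ⟨ga, gb, gc, gd⟩ := ip_away hg.1
  have hdet := det_eq g
  have hbm : IsCongZero q m (g 0 1) := hg.1.2.1
  have hcmk : IsCongZero q (m * k ^ 2) (g 1 0) := hg.2
  -- the two unipotent corrections
  obtain ⟨x, hx⟩ : ∃ x : ℚ, x = g 1 0 * g 1 1 := ⟨_, rfl⟩
  obtain ⟨y, hy⟩ : ∃ y : ℚ, y = g 0 1 * (g 1 1 - x * g 0 1) := ⟨_, rfl⟩
  have hxcz : IsCongZero q (m * k ^ 2) x := by rw [hx]; exact cz_mul_right hcmk gd
  have hycz : IsCongZero q m y := by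
    rw [hy]; exact cz_mul_right hbm (gd.sub ((cz_isAway hxcz).mul gb))
  have hl : InGamK q m k (lQ (-x)) := inGamK_lQ (cz_neg hxcz)
  have hu : InGamK q m k (uQ (-y)) := inGamK_uQ (cz_neg hycz)
  have hl' : InGamK q m k (lQ x) := inGamK_lQ hxcz
  have hu' : InGamK q m k (uQ y) := inGamK_uQ hycz
  obtain ⟨E, hE⟩ : ∃ E : SLQ, E = lQ (-x) * g * uQ (-y) := ⟨_, rfl⟩
  have hEG : InGamK q m k E := by rw [hE]; exact inGamK_mul (inGamK_mul hl hg) hu
  -- entries of `E`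
  have E00 : E 0 0 = g 0 0 := by rw [hE, lgu_00]
  have E01 : E 0 1 = g 0 1 ^ 3 * g 1 0 ^ 2 := by
    rw [hE, lgu_01, hy, hx]
    linear_combination (-g 0 1 + g 0 1 ^ 2 * g 1 0) * hdet
  have E10 : E 1 0 = -(g 0 1 * g 1 0 ^ 2) := by
    rw [hE, lgu_10, hx]
    linear_combination (- g 1 0) * hdet
  -- `c ^ 2 ∈ k ^ 4 A`
  have hc2 : IsCongZero q (k ^ 4) (g 1 0 ^ 2) := by
    have h1 : IsCongZero q (k ^ 2) (g 1 0) := cz_of_dvd (Dvd.intro_left _ rfl) hcmk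
    have h2 := cz_mul h1 h1
    have e : k ^ 2 * k ^ 2 = k ^ 4 := by ring
    rw [e] at h2
    rwa [pow_two]
  have hE01 : IsCongZero q (k ^ 4) (E 0 1) := by
    rw [E01]; exact cz_mul_left (isAway_pow gb 3) hc2
  have hE10 : IsCongZero q (k ^ 4) (E 1 0) := by
    rw [E10]; exact cz_neg (cz_mul_left gb hc2)
  obtain ⟨Ea, -, -, Ed⟩ := ip_away hEG.1
  have hqk4 : Nat.Coprime q (k ^ 4) := Nat.Coprime.pow_right 4 hqk
  have hmk4 : Nat.Coprime m (k ^ 4) := Nat.Coprime.pow_right 4 hmk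
  -- `E ^ φ(k⁴) ∈ Γ(m k⁴)`
  have hEn : IsPrincipal q (m * k ^ 4) (E ^ Nat.totient (k ^ 4)) :=
    ip_mul_of_coprime hmk4 (ip_pow hEG.1 _) (ip_pow_totient_of_diag hqk4 Ea Ed hE01 hE10)
  have h1 : Nat.totient (k ^ 4) • D E = 0 := by
    rw [← hpow E hEG]; exact hvan _ hEn
  -- `D E = 0` by coprimality
  have hDE : D E = 0 := by
    obtain ⟨u, v, huv⟩ := Nat.isCoprime_iff_coprime.2 hp
    have h2 : ((u * (p : ℤ) + v * (Nat.totient (k ^ 4) : ℤ)) : ℤ) • D E = D E := by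
      rw [huv, one_smul]
    rw [add_smul, mul_smul, mul_smul, natCast_zsmul, natCast_zsmul, hV, h1, smul_zero, smul_zero,
      add_zero] at h2
    exact h2.symm
  -- `g = l(x) E u(y)`
  have hg' : g = lQ x * E * uQ y := by
    rw [hE]
    have : lQ x * (lQ (-x) * g * uQ (-y)) * uQ y = (lQ x * lQ (-x)) * g * (uQ (-y) * uQ y) := by
      group
    rw [this, uQ_neg_mul_uQ]
    have h3 : lQ x * lQ (-x) = 1 := by
      have := lQ_neg_mul_lQ (-x); rwa [neg_neg] at this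
    rw [h3, one_mul, mul_one]
  rw [hg', hmul _ _ (inGamK_mul hl' hEG) hu', hmul _ _ hl' hEG, hDE,
    hunip _ hl' (by rw [lQ_00, lQ_11]; norm_num), hunip _ hu' (by rw [uQ_00, uQ_11]; norm_num)]
  simp

end Kill

end Fermat.Agent.S41.CSP43
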