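/-
S41 / C4 [CSP] (helper43, SPARE for CSP11 F4): STEP B of helper11's proof in the landed CSP11
vocabulary (`ParHom`, `Gam`, `ConjInv`, `hQ`, `stepA_uQ/lQ/wQ`), on top of `CSP43.torus_kill`.

`Φ` a parabolic hom of level `m` with values in a group killed by `p`, `k ≥ 1` prime to `m q` with
`p ∤ φ(k⁴)`.  Then `Φ (h(k) g h(k)⁻¹) = Φ g` for every `g ∈ Γ(m)` with `g₁₀ ∈ m k² ℤ[1/q]`.

(B1) `Φ ∘ c_{h(k)}` is a parabolic hom of level `m k²`; STEP A there gives invariance of `Φ` under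
     `l(-1/k)` on `Γ(m k⁴)`;
(B2) `h(k) = u(k) l(-1/k) u(k) w⁻¹` gives `Φ ∘ c_{h(k)} = Φ` on `Γ(m k⁴)`;
(B3) `torus_kill`.
-/
import Mathlib
import Fermat.Agent.S41.CSP11.StepA
import Fermat.Agent.S41.CSP43.TorusKill

set_option autoImplicit false
set_option linter.unusedSectionVars false
set_option linter.unusedSimpArgs false

namespace Fermat.Agent.S41.CSP43

open Matrix Fermat.Agent.S41.Amalgam95 Fermat.Agent.S41.Ihara95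
open Fermat.Agent.S41.CSP11 (CZ Prin Gam GA ParHom ConjInv hQ wQ NTInput IsUnip)

/-! ### conjugation by `h(e)` -/

lemma hQ_conj_00 {e : ℚ} (he : e ≠ 0) (g : SLQ) : (hQ e * g * (hQ e)⁻¹) 0 0 = g 0 0 := by
  rw [mul_00, mul_00, mul_01, inv_00, inv_10, CSP11.hQ_00 he, CSP11.hQ_01 he, CSP11.hQ_10 he,
    CSP11.hQ_11 he]
  field_simp
  try ring
lemma hQ_conj_01 {e : ℚ} (he : e ≠ 0) (g : SLQ) :
    (hQ e * g * (hQ e)⁻¹) 0 1 = e ^ 2 * g 0 1 := by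
  rw [mul_01, mul_00, mul_01, inv_01, inv_11, CSP11.hQ_00 he, CSP11.hQ_01 he]
  ring
lemma hQ_conj_10 {e : ℚ} (he : e ≠ 0) (g : SLQ) :
    (hQ e * g * (hQ e)⁻¹) 1 0 = g 1 0 / e ^ 2 := by
  rw [mul_10, mul_10, mul_11, inv_00, inv_10, CSP11.hQ_10 he, CSP11.hQ_11 he]
  field_simp
  try ring
lemma hQ_conj_11 {e : ℚ} (he : e ≠ 0) (g : SLQ) : (hQ e * g * (hQ e)⁻¹) 1 1 = g 1 1 := by
  rw [mul_11, mul_10, mul_11, inv_01, inv_11, CSP11.hQ_00 he, CSP11.hQ_01 he, CSP11.hQ_10 he,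
    CSP11.hQ_11 he]
  field_simp
  try ring

lemma hQ_inv_conj_00 {e : ℚ} (he : e ≠ 0) (g : SLQ) : ((hQ e)⁻¹ * g * hQ e) 0 0 = g 0 0 := by
  rw [mul_00, mul_00, mul_01, inv_00, inv_01, CSP11.hQ_00 he, CSP11.hQ_01 he, CSP11.hQ_10 he,
    CSP11.hQ_11 he]
  field_simp
  try ring
lemma hQ_inv_conj_01 {e : ℚ} (he : e ≠ 0) (g : SLQ) :
    ((hQ e)⁻¹ * g * hQ e) 0 1 = g 0 1 / e ^ 2 := by
  rw [mul_01, mul_00, mul_01, inv_00, inv_01, CSP11.hQ_01 he, CSP11.hQ_11 he]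
  field_simp
  try ring
lemma hQ_inv_conj_10 {e : ℚ} (he : e ≠ 0) (g : SLQ) :
    ((hQ e)⁻¹ * g * hQ e) 1 0 = e ^ 2 * g 1 0 := by
  rw [mul_10, mul_10, mul_11, inv_10, inv_11, CSP11.hQ_00 he, CSP11.hQ_10 he]
  ring
lemma hQ_inv_conj_11 {e : ℚ} (he : e ≠ 0) (g : SLQ) : ((hQ e)⁻¹ * g * hQ e) 1 1 = g 1 1 := by
  rw [mul_11, mul_10, mul_11, inv_10, inv_11, CSP11.hQ_00 he, CSP11.hQ_01 he, CSP11.hQ_10 he,
    CSP11.hQ_11 he]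
  field_simp
  try ring

/-- `h(e) l(t) h(e)⁻¹ = l(t / e²)` -/
lemma hQ_lQ_conj {e : ℚ} (he : e ≠ 0) (t : ℚ) :
    hQ e * CSP11.lQ t * (hQ e)⁻¹ = CSP11.lQ (t / e ^ 2) := by
  apply ext_entries
  · rw [hQ_conj_00 he]; simp
  · rw [hQ_conj_01 he]; simp
  · rw [hQ_conj_10 he]; simp
  · rw [hQ_conj_11 he]; simp

/-- `h(e) = u(e) l(-1/e) u(e) w⁻¹` -/
lemma hQ_eq_uluw {e : ℚ} (he : e ≠ 0) :
    hQ e = uQ e * CSP11.lQ (-(1 / e)) * uQ e * wQ⁻¹ := by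
  apply ext_entries
  · rw [CSP11.hQ_00 he]
    simp only [mul_00, mul_01, mul_10, mul_11, inv_00, inv_01, inv_10, inv_11,
      uQ_00, uQ_01, uQ_10, uQ_11, CSP11.lQ_00, CSP11.lQ_01, CSP11.lQ_10, CSP11.lQ_11,
      CSP11.wQ_00, CSP11.wQ_01, CSP11.wQ_10, CSP11.wQ_11]
    field_simp
    try ring
  · rw [CSP11.hQ_01 he]
    simp only [mul_00, mul_01, mul_10, mul_11, inv_00, inv_01, inv_10, inv_11,
      uQ_00, uQ_01, uQ_10, uQ_11, CSP11.lQ_00, CSP11.lQ_01, CSP11.lQ_10, CSP11.lQ_11,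
      CSP11.wQ_00, CSP11.wQ_01, CSP11.wQ_10, CSP11.wQ_11]
    field_simp
    try ring
  · rw [CSP11.hQ_10 he]
    simp only [mul_00, mul_01, mul_10, mul_11, inv_00, inv_01, inv_10, inv_11,
      uQ_00, uQ_01, uQ_10, uQ_11, CSP11.lQ_00, CSP11.lQ_01, CSP11.lQ_10, CSP11.lQ_11,
      CSP11.wQ_00, CSP11.wQ_01, CSP11.wQ_10, CSP11.wQ_11]
    field_simp
    try ring
  · rw [CSP11.hQ_11 he]
    simp only [mul_00, mul_01, mul_10, mul_11, inv_00, inv_01, inv_10, inv_11,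
      uQ_00, uQ_01, uQ_10, uQ_11, CSP11.lQ_00, CSP11.lQ_01, CSP11.lQ_10, CSP11.lQ_11,
      CSP11.wQ_00, CSP11.wQ_01, CSP11.wQ_10, CSP11.wQ_11]
    field_simp
    try ring

/-! ### memberships -/

section Membership

variable {q m k : ℕ}

lemma natCast_ne_zero_of_pos (hk : 0 < k) : (k : ℚ) ≠ 0 := by exact_mod_cast hk.ne'

/-- `h(k) g h(k)⁻¹ ∈ Γ(m)` for `g ∈ Γ(m)` with `g₁₀ ∈ m k² A`. -/
lemma hQ_conj_mem_Gam (hk : 0 < k) {g : SLQ} (hg : g ∈ Gam q m)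
    (hc : CZ q (m * k ^ 2) (g 1 0)) : hQ k * g * (hQ k)⁻¹ ∈ Gam q m := by
  have hk' := natCast_ne_zero_of_pos hk
  obtain ⟨g00, g01, g10, g11⟩ := (CSP11.mem_Gam_iff q m g).1 hg
  refine (CSP11.mem_Gam_iff q m _).2 ⟨?_, ?_, ?_, ?_⟩
  · rw [hQ_conj_00 hk']; exact g00
  · rw [hQ_conj_01 hk']
    exact cz_mul_left (isAway_pow (isAway_natCast k) 2) g01
  · rw [hQ_conj_10 hk']
    obtain ⟨r, hr, hcr⟩ := hc
    refine ⟨r, hr, ?_⟩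
    rw [hcr]; push_cast; field_simp
  · rw [hQ_conj_11 hk']; exact g11

/-- `h(k)⁻¹ Γ(m k⁴) h(k) ⊆ Γ(m k²)`. -/
lemma hQ_inv_conj_mem_Gam (hk : 0 < k) {g : SLQ} (hg : g ∈ Gam q (m * k ^ 4)) :
    (hQ k)⁻¹ * g * hQ k ∈ Gam q (m * k ^ 2) := by
  have hk' := natCast_ne_zero_of_pos hk
  have hdvd : m * k ^ 2 ∣ m * k ^ 4 := ⟨k ^ 2, by ring⟩
  obtain ⟨g00, g01, g10, g11⟩ := (CSP11.mem_Gam_iff q _ g).1 hg
  refine (CSP11.mem_Gam_iff q _ _).2 ⟨?_, ?_, ?_, ?_⟩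
  · rw [hQ_inv_conj_00 hk']; exact cz_of_dvd hdvd g00
  · rw [hQ_inv_conj_01 hk']
    obtain ⟨r, hr, hcr⟩ := g01
    refine ⟨r, hr, ?_⟩
    rw [hcr]; push_cast; field_simp
  · rw [hQ_inv_conj_10 hk']
    exact cz_mul_left (isAway_pow (isAway_natCast k) 2) (cz_of_dvd hdvd g10)
  · rw [hQ_inv_conj_11 hk']; exact cz_of_dvd hdvd g11

end Membership

/-! ### STEP B -/

section StepB

variable {q m k p : ℕ} {V : Type} [AddCommGroup V] {Φ : SLQ → V}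

/-- **STEP B** (spare): conjugation by `h(k) = diag(k, 1/k) ∈ SL₂(ℚ)` fixes a parabolic hom of
level `m` on `{g ∈ Γ(m) : g₁₀ ∈ m k² A}`. -/
theorem stepB (hNT : ∀ M : ℕ, 0 < M → M.Coprime q → NTInput q M)
    (hm : 0 < m) (hmq : m.Coprime q) (hk : 0 < k) (hkq : k.Coprime q) (hmk : m.Coprime k)
    (hp : p.Coprime (Nat.totient (k ^ 4))) (hV : ∀ v : V, p • v = 0) (h : ParHom q m Φ) :
    ∀ g : SLQ, g ∈ Gam q m → CZ q (m * k ^ 2) (g 1 0) → Φ (hQ k * g * (hQ k)⁻¹) = Φ g := by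
  have hk' := natCast_ne_zero_of_pos hk
  have hM2 : 0 < m * k ^ 2 := Nat.mul_pos hm (pow_pos hk 2)
  have hM2q : (m * k ^ 2).Coprime q := Nat.Coprime.mul_left hmq (Nat.Coprime.pow_left 2 hkq)
  have hd2 : m ∣ m * k ^ 2 := Dvd.intro _ rfl
  have hd4 : m ∣ m * k ^ 4 := Dvd.intro _ rfl
  have hkA : IsAway q (k : ℚ) := isAway_natCast k
  -- (B1)
  have hΨ : ParHom q (m * k ^ 2) (fun g => Φ (hQ k * g * (hQ k)⁻¹)) :=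
    h.conj_of (fun g hg => hQ_conj_mem_Gam hk (CSP11.Gam_mono q hd2 hg)
      ((CSP11.mem_Gam_iff q _ g).1 hg).c10)
  have hl := CSP11.stepA_lQ hM2.ne' (hNT _ hM2 hM2q) hΨ (t := -(k : ℚ)) hkA.neg
  have hconjl : hQ k * CSP11.lQ (-(k : ℚ)) * (hQ k)⁻¹ = CSP11.lQ (-(1 / (k : ℚ))) := by
    rw [hQ_lQ_conj hk']
    congr 1
    field_simp
  have key : ∀ y : SLQ, hQ k * (CSP11.lQ (-(k : ℚ)) * y * (CSP11.lQ (-(k : ℚ)))⁻¹) * (hQ k)⁻¹ =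
      CSP11.lQ (-(1 / (k : ℚ))) * (hQ k * y * (hQ k)⁻¹) * (CSP11.lQ (-(1 / (k : ℚ))))⁻¹ := by
    intro y
    rw [← hconjl]; group
  have B1 : ∀ g : SLQ, g ∈ Gam q (m * k ^ 4) →
      Φ (CSP11.lQ (-(1 / (k : ℚ))) * g * (CSP11.lQ (-(1 / (k : ℚ))))⁻¹) = Φ g := by
    intro g hg
    have hy := hQ_inv_conj_mem_Gam hk hg
    have := hl _ hy
    simp only at this
    rw [key] at this
    have e : hQ k * ((hQ k)⁻¹ * g * hQ k) * (hQ k)⁻¹ = g := by group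
    rwa [e] at this
  have B1mem : ∀ g : SLQ, g ∈ Gam q (m * k ^ 4) →
      CSP11.lQ (-(1 / (k : ℚ))) * g * (CSP11.lQ (-(1 / (k : ℚ))))⁻¹ ∈ Gam q m := by
    intro g hg
    have hy := hQ_inv_conj_mem_Gam hk hg
    have hz : CSP11.lQ (-(k : ℚ)) * ((hQ k)⁻¹ * g * hQ k) * (CSP11.lQ (-(k : ℚ)))⁻¹ ∈
        Gam q (m * k ^ 2) := CSP11.Gam_conj_mem (CSP11.lQ_mem_GA hkA.neg) hy
    have := hQ_conj_mem_Gam hk (CSP11.Gam_mono q hd2 hz) ((CSP11.mem_Gam_iff q _ _).1 hz).c10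
    rw [key] at this
    have e : hQ k * ((hQ k)⁻¹ * g * hQ k) * (hQ k)⁻¹ = g := by group
    rwa [e] at this
  -- (B2)
  have hu := CSP11.stepA_uQ hm.ne' (hNT _ hm hmq) h (t := (k : ℚ)) hkA
  have hw := CSP11.stepA_wQ hm.ne' (hNT _ hm hmq) h
  have hwi := hw.inv (CSP11.wQ_mem_GA q)
  have B2 : ∀ g : SLQ, g ∈ Gam q (m * k ^ 4) → Φ (hQ k * g * (hQ k)⁻¹) = Φ g := by
    intro g hg
    have hg1 : wQ⁻¹ * g * wQ⁻¹⁻¹ ∈ Gam q (m * k ^ 4) :=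
      CSP11.Gam_conj_mem ((GA q).inv_mem (CSP11.wQ_mem_GA q)) hg
    have e1 : Φ (wQ⁻¹ * g * wQ⁻¹⁻¹) = Φ g := hwi g (CSP11.Gam_mono q hd4 hg)
    have hg2 : uQ k * (wQ⁻¹ * g * wQ⁻¹⁻¹) * (uQ k)⁻¹ ∈ Gam q (m * k ^ 4) :=
      CSP11.Gam_conj_mem (CSP11.uQ_mem_GA hkA) hg1
    have e2 := hu _ (CSP11.Gam_mono q hd4 hg1)
    have e3 := B1 _ hg2
    have hg3 := B1mem _ hg2
    have e4 := hu _ hg3
    have ident : hQ k * g * (hQ k)⁻¹ =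
        uQ k * (CSP11.lQ (-(1 / (k : ℚ))) * (uQ k * (wQ⁻¹ * g * wQ⁻¹⁻¹) * (uQ k)⁻¹) *
          (CSP11.lQ (-(1 / (k : ℚ))))⁻¹) * (uQ k)⁻¹ := by
      rw [hQ_eq_uluw hk']; group
    rw [ident, e4, e3, e2, e1]
  -- (B3)
  intro g hg hc
  have hD := torus_kill (q := q) (m := m) (k := k) (p := p) hkq.symm hmk hp hV
    (fun g => Φ (hQ k * g * (hQ k)⁻¹) - Φ g) ?_ ?_ ?_ g ⟨hg, hc⟩
  · exact sub_eq_zero.1 hD
  · rintro g₁ g₂ ⟨hg₁, hc₁⟩ ⟨hg₂, hc₂⟩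
    have e : hQ k * (g₁ * g₂) * (hQ k)⁻¹ = (hQ k * g₁ * (hQ k)⁻¹) * (hQ k * g₂ * (hQ k)⁻¹) := by
      group
    show Φ (hQ k * (g₁ * g₂) * (hQ k)⁻¹) - Φ (g₁ * g₂) = _
    rw [e, h.map_mul _ _ (hQ_conj_mem_Gam hk hg₁ hc₁) (hQ_conj_mem_Gam hk hg₂ hc₂),
      h.map_mul _ _ hg₁ hg₂]
    abel
  · intro g₁ hg₁
    show Φ (hQ k * g₁ * (hQ k)⁻¹) - Φ g₁ = 0
    rw [B2 g₁ hg₁, sub_self]
  · rintro g₁ ⟨hg₁, hc₁⟩ htr
    show Φ (hQ k * g₁ * (hQ k)⁻¹) - Φ g₁ = 0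
    rw [h.map_unip _ hg₁ htr,
      h.map_unip _ (hQ_conj_mem_Gam hk hg₁ hc₁) (CSP11.isUnip_conj _ _ htr), sub_self]

end StepB

end Fermat.Agent.S41.CSP43
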